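import Mathlib
import Fermat.Agent.LT.T7.B970.Pair2Spec
import Fermat.Agent.LT.H129.Local
import Fermat.Agent.LT.T7.H981.FinIndex

/-!
# Row LT, tower T7, node T7.L2.1.H2a.4 `Pair2Cb970`, leaf T7.L2.1.H2a.4.3 `WtDownC970`
# (helper470, registry 2864)

OFF-MAIN.  `wtDownC470 (K K') : B970.WtDownC970 K K'`, VERBATIM against
`LT/T7/B970/Pair2Spec.lean` (helper970@c68ed6767).  Imports: Mathlib + the spec closure + the
kits `LT/H129/{Comp,Local}` (helper129, local embedding) and `LT/T7/H981/FinIndex` (helper981,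
finite index of `U(𝔑)`), byte-identical copies.  ADDITIVE (new names only, suffix `470`).

Route.  (1) `U(n)` is a subgroup of `GL₂(k)`; the Iwahori subgroup is stable under right
multiplication by `U(n)`, `n ≥ 1`.  (2) A function which is right invariant under `U(n)` and
supported on finitely many cosets is the sum of `φ(r) 1_{U(n)}(r⁻¹ ·)` over a finite set `R`
of representatives (the values of `Quotient.out`).  (3) `m_u ≥ 1` for `u ∣ 𝔫`, and the Iwahori
subgroup is covered by finitely many cosets of `U(m_u)` (`finIndexC981` for the local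
embedding of an element of the Iwahori subgroup).  (4) Induction over the finite set of
places: the weighted sum over `s × R` of the left translates by `x · loc_{v₀}(r)`; the
translate of a pure tensor by `loc_{v₀}(r)` is the pure tensor with the translated component
at `v₀`, and a pure tensor is linear in the component at `v₀`.
-/

set_option autoImplicit false

open IsDedekindDomain NumberField

noncomputable section

namespace Fermat.Agent.LT.T7.H470

open Fermat.Agent.LT.H556 Fermat.Agent.LT.H556.A0 Fermat.Agent.LT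
open Fermat.Agent.LT.T7.H305 Fermat.Agent.LT.T7.H893 Fermat.Agent.LT.T7.B981
open Fermat.Agent.LT.T7.B970 Fermat.Agent.LT.H129

/-! ## 1. The local groups -/

section Local

variable {k : Type} [Field k] [Valued k T6.Γ₀]

theorem exp_neg_le_one470 (n : ℕ) : (WithZero.exp (-(n : ℤ)) : T6.Γ₀) ≤ 1 := by
  rw [← WithZero.exp_zero]
  exact WithZero.exp_le_exp.mpr (by omega)

theorem exp_neg_lt_one470 {n : ℕ} (hn : 1 ≤ n) : (WithZero.exp (-(n : ℤ)) : T6.Γ₀) < 1 := by
  rw [← WithZero.exp_zero]
  exact WithZero.exp_lt_exp.mpr (by omega)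

/-- The entries of `A - 1` have valuation `≤ ε`. -/
def Near470 (ε : T6.Γ₀) (A : Matrix (Fin 2) (Fin 2) k) : Prop :=
  ∀ i j : Fin 2, Valued.v (A i j - (1 : Matrix (Fin 2) (Fin 2) k) i j) ≤ ε

/-- The entries of `A` are integral. -/
def Intg470 (A : Matrix (Fin 2) (Fin 2) k) : Prop :=
  ∀ i j : Fin 2, Valued.v (A i j) ≤ 1

theorem val_one_entry470 (i j : Fin 2) :
    Valued.v ((1 : Matrix (Fin 2) (Fin 2) k) i j) ≤ (1 : T6.Γ₀) := by
  rw [Matrix.one_apply]
  split_ifs
  · rw [map_one]
  · rw [map_zero]; exact zero_le_one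

theorem near_one470 (ε : T6.Γ₀) : Near470 ε (1 : Matrix (Fin 2) (Fin 2) k) := by
  intro i j
  rw [sub_self, map_zero]
  exact zero_le

theorem intg_of_near470 {ε : T6.Γ₀} (hε : ε ≤ 1) {A : Matrix (Fin 2) (Fin 2) k}
    (hA : Near470 ε A) : Intg470 A := by
  intro i j
  have e : A i j = (A i j - (1 : Matrix (Fin 2) (Fin 2) k) i j)
      + (1 : Matrix (Fin 2) (Fin 2) k) i j := by ring
  rw [e]
  exact Valuation.map_add_le _ ((hA i j).trans hε) (val_one_entry470 i j)

theorem intg_mul470 {A B : Matrix (Fin 2) (Fin 2) k} (hA : Intg470 A) (hB : Intg470 B) :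
    Intg470 (A * B) := by
  intro i j
  rw [Matrix.mul_apply, Fin.sum_univ_two]
  refine Valuation.map_add_le _ ?_ ?_
  · rw [map_mul]; exact mul_le_one' (hA i 0) (hB 0 j)
  · rw [map_mul]; exact mul_le_one' (hA i 1) (hB 1 j)

theorem near_mul470 {ε : T6.Γ₀} (hε : ε ≤ 1) {A B : Matrix (Fin 2) (Fin 2) k}
    (hA : Near470 ε A) (hB : Near470 ε B) : Near470 ε (A * B) := by
  intro i j
  have e : (A * B) i j - (1 : Matrix (Fin 2) (Fin 2) k) i j
      = (A i j - (1 : Matrix (Fin 2) (Fin 2) k) i j)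
        + (B i j - (1 : Matrix (Fin 2) (Fin 2) k) i j)
        + ((A i 0 - (1 : Matrix (Fin 2) (Fin 2) k) i 0)
              * (B 0 j - (1 : Matrix (Fin 2) (Fin 2) k) 0 j)
            + (A i 1 - (1 : Matrix (Fin 2) (Fin 2) k) i 1)
              * (B 1 j - (1 : Matrix (Fin 2) (Fin 2) k) 1 j)) := by
    have hmat : A * B - 1 = (A - 1) + (B - 1) + (A - 1) * (B - 1) := by noncomm_ring
    have h2 := congrFun (congrFun hmat i) j
    simp only [Matrix.sub_apply, Matrix.add_apply, Matrix.mul_apply, Fin.sum_univ_two] at h2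
    rw [Matrix.mul_apply, Fin.sum_univ_two]
    exact h2
  rw [e]
  have hm : ∀ a b : k, Valued.v a ≤ ε → Valued.v b ≤ ε → Valued.v (a * b) ≤ ε := by
    intro a b ha hb
    rw [map_mul]
    calc Valued.v a * Valued.v b ≤ ε * 1 := mul_le_mul' ha (hb.trans hε)
      _ = ε := mul_one ε
  refine Valuation.map_add_le _ (Valuation.map_add_le _ (hA i j) (hB i j))
    (Valuation.map_add_le _ (hm _ _ (hA i 0) (hB 0 j)) (hm _ _ (hA i 1) (hB 1 j)))

theorem inU_iff470 (n : ℕ) (g : GL (Fin 2) k) :
    T6.InU n g ↔ Near470 (WithZero.exp (-(n : ℤ))) (g : Matrix (Fin 2) (Fin 2) k)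
      ∧ Near470 (WithZero.exp (-(n : ℤ))) ((g⁻¹ : GL (Fin 2) k) : Matrix (Fin 2) (Fin 2) k) :=
  ⟨fun h => ⟨fun i j => (h i j).1, fun i j => (h i j).2⟩, fun h i j => ⟨h.1 i j, h.2 i j⟩⟩

theorem inU_one470 (n : ℕ) : T6.InU n (1 : GL (Fin 2) k) := by
  rw [inU_iff470, inv_one]
  exact ⟨near_one470 _, near_one470 _⟩

theorem inU_inv470 {n : ℕ} {g : GL (Fin 2) k} (hg : T6.InU n g) : T6.InU n g⁻¹ := by
  rw [inU_iff470] at hg ⊢
  rw [inv_inv]
  exact ⟨hg.2, hg.1⟩

theorem inU_mul470 {n : ℕ} {g h : GL (Fin 2) k} (hg : T6.InU n g) (hh : T6.InU n h) :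
    T6.InU n (g * h) := by
  rw [inU_iff470] at hg hh ⊢
  refine ⟨?_, ?_⟩
  · rw [Matrix.GeneralLinearGroup.coe_mul]
    exact near_mul470 (exp_neg_le_one470 n) hg.1 hh.1
  · rw [mul_inv_rev, Matrix.GeneralLinearGroup.coe_mul]
    exact near_mul470 (exp_neg_le_one470 n) hh.2 hg.2

/-- `U(n)` as a subgroup. -/
def uSub470 (n : ℕ) : Subgroup (GL (Fin 2) k) where
  carrier := {g | T6.InU n g}
  mul_mem' := fun hg hh => inU_mul470 hg hh
  one_mem' := inU_one470 n
  inv_mem' := fun hg => inU_inv470 hg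

theorem mem_uSub470 (n : ℕ) (g : GL (Fin 2) k) : g ∈ uSub470 (k := k) n ↔ T6.InU n g :=
  Iff.rfl

/-- The Iwahori subgroup is stable under right multiplication by `U(n)`, `n ≥ 1`. -/
theorem inIw_mul470 {n : ℕ} (hn : 1 ≤ n) {g u : GL (Fin 2) k} (hg : InIw893 g)
    (hu : T6.InU n u) : InIw893 (g * u) := by
  rw [inU_iff470] at hu
  have hu1 : Intg470 (u : Matrix (Fin 2) (Fin 2) k) :=
    intg_of_near470 (exp_neg_le_one470 n) hu.1
  have hu2 : Intg470 ((u⁻¹ : GL (Fin 2) k) : Matrix (Fin 2) (Fin 2) k) :=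
    intg_of_near470 (exp_neg_le_one470 n) hu.2
  refine ⟨?_, ?_, ?_⟩
  · rw [Matrix.GeneralLinearGroup.coe_mul]
    exact intg_mul470 hg.1 hu1
  · rw [mul_inv_rev, Matrix.GeneralLinearGroup.coe_mul]
    exact intg_mul470 hu2 hg.2.1
  · rw [Matrix.GeneralLinearGroup.coe_mul, Matrix.mul_apply, Fin.sum_univ_two]
    refine Valuation.map_add_lt _ ?_ ?_
    · rw [map_mul]
      calc Valued.v ((g : Matrix (Fin 2) (Fin 2) k) 1 0)
              * Valued.v ((u : Matrix (Fin 2) (Fin 2) k) 0 0)
            ≤ Valued.v ((g : Matrix (Fin 2) (Fin 2) k) 1 0) * 1 :=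
              mul_le_mul' le_rfl (hu1 0 0)
        _ = Valued.v ((g : Matrix (Fin 2) (Fin 2) k) 1 0) := mul_one _
        _ < 1 := hg.2.2
    · rw [map_mul]
      have h10 : Valued.v ((u : Matrix (Fin 2) (Fin 2) k) 1 0)
          ≤ WithZero.exp (-(n : ℤ)) := by
        have := hu.1 1 0
        rwa [Matrix.one_apply_ne (by decide), sub_zero] at this
      calc Valued.v ((g : Matrix (Fin 2) (Fin 2) k) 1 1)
              * Valued.v ((u : Matrix (Fin 2) (Fin 2) k) 1 0)
            ≤ 1 * WithZero.exp (-(n : ℤ)) := mul_le_mul' (hg.1 1 1) h10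
        _ = WithZero.exp (-(n : ℤ)) := one_mul _
        _ < 1 := exp_neg_lt_one470 hn

theorem iwFn_mul470 {n : ℕ} (hn : 1 ≤ n) (g u : GL (Fin 2) k) (hu : T6.InU n u) :
    iwFn893 (g * u) = iwFn893 g := by
  have h : InIw893 (g * u) ↔ InIw893 g := by
    constructor
    · intro h
      have := inIw_mul470 hn h (inU_inv470 hu)
      rwa [mul_assoc, mul_inv_cancel, mul_one] at this
    · intro h
      exact inIw_mul470 hn h hu
  by_cases hg : InIw893 g
  · have h1 : iwFn893 (g * u) = 1 := if_pos (h.2 hg)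
    have h2 : iwFn893 g = 1 := if_pos hg
    rw [h1, h2]
  · have h1 : iwFn893 (g * u) = 0 := if_neg (fun e => hg (h.1 e))
    have h2 : iwFn893 g = 0 := if_neg hg
    rw [h1, h2]

/-- **The local decomposition**: a function which is right invariant under `U(n)` and
supported on finitely many cosets is a finite sum of multiples of left translates of the unit
function. -/
theorem local_decomp470 (n : ℕ) (φ : GL (Fin 2) k → ℂ)
    (hinv : ∀ g u : GL (Fin 2) k, T6.InU n u → φ (g * u) = φ g)
    (hfin : T6.HasFinSupp (T6.InU n) φ) :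
    ∃ R : Finset (GL (Fin 2) k), ∀ g : GL (Fin 2) k,
      ∑ r ∈ R, φ r * unitFn893 n (r⁻¹ * g) = φ g := by
  classical
  obtain ⟨F, hF⟩ := hfin
  let rep : GL (Fin 2) k → GL (Fin 2) k :=
    fun x => (QuotientGroup.mk x : GL (Fin 2) k ⧸ uSub470 (k := k) n).out
  have hmk : ∀ x : GL (Fin 2) k,
      (QuotientGroup.mk (rep x) : GL (Fin 2) k ⧸ uSub470 (k := k) n) = QuotientGroup.mk x :=
    fun x => QuotientGroup.out_eq' _
  have hkey : ∀ x g : GL (Fin 2) k, T6.InU n ((rep x)⁻¹ * g) → rep x = rep g := by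
    intro x g h
    have h2 : (QuotientGroup.mk (rep x) : GL (Fin 2) k ⧸ uSub470 (k := k) n)
        = QuotientGroup.mk g := QuotientGroup.eq.mpr h
    have h3 : (QuotientGroup.mk x : GL (Fin 2) k ⧸ uSub470 (k := k) n)
        = QuotientGroup.mk g := (hmk x).symm.trans h2
    show (QuotientGroup.mk x : GL (Fin 2) k ⧸ uSub470 (k := k) n).out
      = (QuotientGroup.mk g : GL (Fin 2) k ⧸ uSub470 (k := k) n).out
    rw [h3]
  have hself : ∀ g : GL (Fin 2) k, T6.InU n ((rep g)⁻¹ * g) := fun g =>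
    QuotientGroup.eq.mp (hmk g)
  have hval : ∀ g : GL (Fin 2) k, φ (rep g) = φ g := by
    intro g
    have h1 : T6.InU n (g⁻¹ * rep g) := by
      have := inU_inv470 (hself g)
      rwa [mul_inv_rev, inv_inv] at this
    have := hinv g (g⁻¹ * rep g) h1
    rwa [mul_inv_cancel_left] at this
  refine ⟨F.image rep, fun g => ?_⟩
  by_cases hg : rep g ∈ F.image rep
  · rw [Finset.sum_eq_single (rep g)]
    · unfold unitFn893
      rw [if_pos (hself g), mul_one, hval]
    · intro r hr hne
      obtain ⟨x, _, rfl⟩ := Finset.mem_image.mp hr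
      have hn : ¬ T6.InU n ((rep x)⁻¹ * g) := fun h => hne (hkey x g h)
      unfold unitFn893
      rw [if_neg hn, mul_zero]
    · intro h
      exact absurd hg h
  · have hφ : φ g = 0 := by
      by_contra hne
      obtain ⟨x, hx, u, hu, rfl⟩ := hF g hne
      apply hg
      refine Finset.mem_image.mpr ⟨x, hx, ?_⟩
      have h1 : T6.InU n ((rep x)⁻¹ * (x * u)) := by
        have := inU_mul470 (hself x) hu
        rwa [mul_assoc] at this
      exact hkey x (x * u) h1
    rw [hφ]
    refine Finset.sum_eq_zero fun r hr => ?_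
    obtain ⟨x, _, rfl⟩ := Finset.mem_image.mp hr
    have hn : ¬ T6.InU n ((rep x)⁻¹ * g) := by
      intro h
      apply hg
      rw [← hkey x g h]
      exact hr
    unfold unitFn893
    rw [if_neg hn, mul_zero]

end Local

/-! ## 2. The place `u`: `m_u ≥ 1`, the Iwahori subgroup is covered by finitely many cosets -/

section Global

variable {K : Type} [Field K] [NumberField K]

theorem one_le_of_dvd470 {𝔫 : Ideal (𝓞 K)} {m : HeightOneSpectrum (𝓞 K) → ℕ}
    (hm : IsLevelOf893 𝔫 m) {u : HeightOneSpectrum (𝓞 K)} (hu : u.asIdeal ∣ 𝔫) :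
    1 ≤ m u := by
  by_contra h
  have h0 : m u = 0 := by omega
  have h1 : (1 : u.adicCompletion K) ∈ idealClosure 𝔫 u := by
    rw [hm u 1, h0, map_one]
    simp
  have hcl : IsClosed {z : u.adicCompletion K | Valued.v z < 1} := by
    have := Valued.isClosed_ball (u.adicCompletion K) (1 : _)
    simpa only [Valuation.restrict_lt_one_iff] using this
  have hsub : idealClosure 𝔫 u ⊆ {z : u.adicCompletion K | Valued.v z < 1} := by
    refine closure_minimal ?_ hcl
    rintro _ ⟨a, ha, rfl⟩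
    show Valued.v (H981.toC981 u a) < 1
    rw [H981.valued_toC981]
    exact (u.intValuation_lt_one_iff_mem a).2 (Ideal.le_of_dvd hu ha)
  have h2 : Valued.v (1 : u.adicCompletion K) < 1 := hsub h1
  rw [map_one] at h2
  exact lt_irrefl _ h2

theorem one_entry_mem470 (v : HeightOneSpectrum (𝓞 K)) (i j : Fin 2) :
    (1 : Matrix (Fin 2) (Fin 2) (v.adicCompletion K)) i j ∈ v.adicCompletionIntegers K := by
  rw [Matrix.one_apply]
  split_ifs
  · exact one_mem _
  · exact zero_mem _

/-- The local embedding of an element with integral entries is integral everywhere. -/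
theorem isIntegralAt_locFin470 (u : HeightOneSpectrum (𝓞 K))
    (g : GL (Fin 2) (u.adicCompletion K))
    (hg : ∀ i j : Fin 2, Valued.v ((g : Matrix (Fin 2) (Fin 2) (u.adicCompletion K)) i j) ≤ 1)
    (v : HeightOneSpectrum (𝓞 K)) : IsIntegralAt v (locFin129 u g) := by
  rw [isIntegralAt_iff129]
  intro i j
  by_cases hv : v = u
  · subst hv
    rw [finCompHom129_locFin129, HeightOneSpectrum.mem_adicCompletionIntegers]
    exact hg i j
  · rw [finCompHom129_locFin129_of_ne u g hv]
    exact one_entry_mem470 v i j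

theorem trivAtInf_locFin470 (u : HeightOneSpectrum (𝓞 K))
    (g : GL (Fin 2) (u.adicCompletion K)) (w : InfinitePlace K) :
    TrivAtInf w (locFin129 u g) :=
  (trivAtInf_iff129 w _).2 (infCompHom129_locFin129 u g w)

theorem iw_finSupp470 {𝔫 : Ideal (𝓞 K)} (h𝔫 : 𝔫 ≠ ⊥) {m : HeightOneSpectrum (𝓞 K) → ℕ}
    (hm : IsLevelOf893 𝔫 m) (u : HeightOneSpectrum (𝓞 K)) :
    T6.HasFinSupp (T6.InU (m u)) (iwFn893 : GL (Fin 2) (u.adicCompletion K) → ℂ) := by
  classical
  obtain ⟨T, hT⟩ := H981.finIndexC981 K 𝔫 h𝔫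
  refine ⟨T.image (finCompHom129 u), fun g hg => ?_⟩
  have hgI : InIw893 g := by
    by_contra h
    apply hg
    unfold iwFn893
    rw [if_neg h]
  obtain ⟨τ, hτ, hlev⟩ := hT (locFin129 u g) (fun w => trivAtInf_locFin470 u g w)
    (fun v => ⟨isIntegralAt_locFin470 u g hgI.1 v, by
      rw [← map_inv]
      exact isIntegralAt_locFin470 u g⁻¹ hgI.2.1 v⟩)
  refine ⟨finCompHom129 u τ, Finset.mem_image_of_mem _ hτ, (finCompHom129 u τ)⁻¹ * g, ?_,
    (mul_inv_cancel_left _ _).symm⟩
  have e : (finCompHom129 u τ)⁻¹ * g = finCompHom129 u (τ⁻¹ * locFin129 u g) := by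
    rw [map_mul, map_inv, finCompHom129_locFin129]
  rw [e]
  intro i j
  have h := hlev.2 u i j
  refine ⟨(hm u _).1 h.1, ?_⟩
  rw [← map_inv]
  exact (hm u _).1 h.2

/-! ## 3. Pure tensors: translation by a local element, linearity in one component -/

theorem infGL305_of_triv470 {w : InfinitePlace K} {x : G K} (h : TrivAtInf w x) :
    infGL305 w x = 1 := by
  apply Units.ext
  ext i j
  show InfinitePlace.Completion.extensionEmbedding w
      (((x : Matrix (Fin 2) (Fin 2) (Adl K)) i j).1 w)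
    = (1 : Matrix (Fin 2) (Fin 2) ℂ) i j
  rw [h i j, Matrix.one_apply, Matrix.one_apply]
  split_ifs
  · rw [map_one]
  · rw [map_zero]

theorem finGL305_eq470 (v : HeightOneSpectrum (𝓞 K)) (x : G K) :
    finGL305 v x = finCompHom129 v x := rfl

theorem outT_transl470 (T : Finset (HeightOneSpectrum (𝓞 K))) {x : G K}
    (hx : ∀ v : HeightOneSpectrum (𝓞 K), v ∉ T → finCompHom129 v x = 1) (h : G K) :
    OutT305 T (x⁻¹ * h) ↔ OutT305 T h := by
  unfold OutT305
  refine forall_congr' fun v => forall_congr' fun hv => ?_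
  rw [isIntegralAt_iff129, isIntegralAt_iff129, isIntegralAt_iff129, isIntegralAt_iff129,
    mul_inv_rev, inv_inv, map_mul, map_mul, map_inv, hx v hv, inv_one, one_mul, mul_one]

open Classical in
theorem pure_transl470 (T : Finset (HeightOneSpectrum (𝓞 K)))
    (f₀ : ∀ v : HeightOneSpectrum (𝓞 K), GL (Fin 2) (v.adicCompletion K) → ℂ)
    (F : InfinitePlace K → GL (Fin 2) ℂ → ℂ) {v₀ : HeightOneSpectrum (𝓞 K)} (hv₀ : v₀ ∈ T)
    (r : GL (Fin 2) (v₀.adicCompletion K)) (h : G K) :
    pure305 T f₀ F ((locFin129 v₀ r)⁻¹ * h)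
      = pure305 T (Function.update f₀ v₀ (fun g => f₀ v₀ (r⁻¹ * g))) F h := by
  classical
  have hO : OutT305 T ((locFin129 v₀ r)⁻¹ * h) ↔ OutT305 T h :=
    outT_transl470 T (fun v hv => finCompHom129_locFin129_of_ne v₀ r
      (fun e => hv (e ▸ hv₀))) h
  have hinf : ∀ w : InfinitePlace K,
      infGL305 w ((locFin129 v₀ r)⁻¹ * h) = infGL305 w h := by
    intro w
    rw [map_mul, map_inv, infGL305_of_triv470 (trivAtInf_locFin470 v₀ r w), inv_one, one_mul]
  have hfin : ∀ v ∈ T, f₀ v (finGL305 v ((locFin129 v₀ r)⁻¹ * h))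
      = Function.update f₀ v₀ (fun g => f₀ v₀ (r⁻¹ * g)) v (finGL305 v h) := by
    intro v _
    by_cases hv : v = v₀
    · subst hv
      rw [Function.update_self, map_mul, map_inv, finGL305_eq470 v (locFin129 v r),
        finCompHom129_locFin129]
    · rw [Function.update_of_ne hv, map_mul, map_inv, finGL305_eq470 v (locFin129 v₀ r),
        finCompHom129_locFin129_of_ne v₀ r hv, inv_one, one_mul]
  unfold pure305
  simp only [hO, hinf]
  rw [Finset.prod_congr rfl hfin]

open Classical in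
/-- The pure tensor without the component at `v₀`. -/
def rest470 (T : Finset (HeightOneSpectrum (𝓞 K)))
    (f₀ : ∀ v : HeightOneSpectrum (𝓞 K), GL (Fin 2) (v.adicCompletion K) → ℂ)
    (F : InfinitePlace K → GL (Fin 2) ℂ → ℂ) (v₀ : HeightOneSpectrum (𝓞 K)) (y : G K) : ℂ :=
  if OutT305 T y then
    (∏ v ∈ T.erase v₀, f₀ v (finGL305 v y)) * ∏ w : InfinitePlace K, F w (infGL305 w y)
  else 0

open Classical in
theorem pure_update470 (T : Finset (HeightOneSpectrum (𝓞 K)))
    (f₀ : ∀ v : HeightOneSpectrum (𝓞 K), GL (Fin 2) (v.adicCompletion K) → ℂ)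
    (F : InfinitePlace K → GL (Fin 2) ℂ → ℂ) {v₀ : HeightOneSpectrum (𝓞 K)} (hv₀ : v₀ ∈ T)
    (ψ : GL (Fin 2) (v₀.adicCompletion K) → ℂ) (y : G K) :
    pure305 T (Function.update f₀ v₀ ψ) F y = ψ (finGL305 v₀ y) * rest470 T f₀ F v₀ y := by
  classical
  unfold pure305 rest470
  by_cases hO : OutT305 T y
  · rw [if_pos hO, if_pos hO, ← Finset.mul_prod_erase T _ hv₀, Function.update_self, mul_assoc]
    congr 2
    refine Finset.prod_congr rfl fun v hv => ?_
    rw [Function.update_of_ne (Finset.ne_of_mem_erase hv)]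
  · rw [if_neg hO, if_neg hO, mul_zero]

/-! ## 4. The induction over the places -/

open Classical in
theorem wt_induct470 (m : HeightOneSpectrum (𝓞 K) → ℕ)
    (c : ∀ v : HeightOneSpectrum (𝓞 K), GL (Fin 2) (v.adicCompletion K) → ℂ)
    (A : Finset (HeightOneSpectrum (𝓞 K)))
    (hL : ∀ v ∈ A, ∃ R : Finset (GL (Fin 2) (v.adicCompletion K)),
      ∀ g : GL (Fin 2) (v.adicCompletion K),
        ∑ r ∈ R, c v r * unitFn893 (m v) (r⁻¹ * g) = c v g) :
    ∃ (s : Finset (G K)) (β : G K → ℂ),
      (∀ x ∈ s, (∀ w : InfinitePlace K, TrivAtInf w x) ∧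
        ∀ v : HeightOneSpectrum (𝓞 K), v ∉ A → TrivAtFin v x) ∧
      ∀ (T : Finset (HeightOneSpectrum (𝓞 K)))
        (f₀ : ∀ v : HeightOneSpectrum (𝓞 K), GL (Fin 2) (v.adicCompletion K) → ℂ)
        (F : InfinitePlace K → GL (Fin 2) ℂ → ℂ), A ⊆ T →
        (∀ v ∈ A, f₀ v = unitFn893 (m v)) →
        ∀ y : G K, ∑ x ∈ s, β x * pure305 T f₀ F (x⁻¹ * y)
          = pure305 T (fun v => if v ∈ A then c v else f₀ v) F y := by
  induction A using Finset.induction_on with
  | empty =>
    refine ⟨{1}, fun _ => 1, ?_, ?_⟩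
    · intro x hx
      rw [Finset.mem_singleton] at hx
      subst hx
      exact ⟨fun w => (trivAtInf_iff129 w 1).2 (map_one _),
        fun v _ => (trivAtFin_iff129 v 1).2 (map_one _)⟩
    · intro T f₀ F _ _ y
      simp
  | insert v₀ A hv₀ ih =>
    obtain ⟨s, β, hsupp, hrep⟩ := ih (fun v hv => hL v (Finset.mem_insert_of_mem hv))
    obtain ⟨R, hR⟩ := hL v₀ (Finset.mem_insert_self _ _)
    let X : G K × GL (Fin 2) (v₀.adicCompletion K) → G K := fun p => p.1 * locFin129 v₀ p.2
    refine ⟨(s ×ˢ R).image X,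
      fun z => ∑ p ∈ (s ×ˢ R) with X p = z, β p.1 * c v₀ p.2, ?_, ?_⟩
    · intro z hz
      obtain ⟨p, hp, rfl⟩ := Finset.mem_image.mp hz
      have hp1 : p.1 ∈ s := (Finset.mem_product.mp hp).1
      refine ⟨fun w => ?_, fun v hv => ?_⟩
      · rw [trivAtInf_iff129]
        show infCompHom129 w (p.1 * locFin129 v₀ p.2) = 1
        rw [map_mul, infCompHom129_locFin129, mul_one]
        exact (trivAtInf_iff129 w _).1 ((hsupp p.1 hp1).1 w)
      · rw [trivAtFin_iff129]
        show finCompHom129 v (p.1 * locFin129 v₀ p.2) = 1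
        have hv1 : v ≠ v₀ := fun e => hv (e ▸ Finset.mem_insert_self _ _)
        have hv2 : v ∉ A := fun e => hv (Finset.mem_insert_of_mem e)
        rw [map_mul, finCompHom129_locFin129_of_ne v₀ p.2 hv1, mul_one]
        exact (trivAtFin_iff129 v _).1 ((hsupp p.1 hp1).2 v hv2)
    · intro T f₀ F hT hf₀ y
      have hv₀T : v₀ ∈ T := hT (Finset.mem_insert_self _ _)
      have hAT : A ⊆ T := fun v hv => hT (Finset.mem_insert_of_mem hv)
      rw [Finset.sum_image' (fun p => β p.1 * c v₀ p.2 * pure305 T f₀ F ((X p)⁻¹ * y))]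
      swap
      · intro p _
        rw [Finset.sum_mul]
        refine Finset.sum_congr rfl fun q hq => ?_
        rw [(Finset.mem_filter.mp hq).2]
      rw [Finset.sum_product]
      have e1 : ∀ (x : G K) (r : GL (Fin 2) (v₀.adicCompletion K)),
          pure305 T f₀ F ((X (x, r))⁻¹ * y)
            = pure305 T (Function.update f₀ v₀ (fun g => f₀ v₀ (r⁻¹ * g))) F (x⁻¹ * y) := by
        intro x r
        rw [← pure_transl470 T f₀ F hv₀T r (x⁻¹ * y)]
        congr 1
        simp only [X, mul_inv_rev, mul_assoc]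
      simp only [e1]
      rw [Finset.sum_comm]
      have e2 : ∀ r : GL (Fin 2) (v₀.adicCompletion K),
          ∑ x ∈ s, β x * c v₀ r
              * pure305 T (Function.update f₀ v₀ (fun g => f₀ v₀ (r⁻¹ * g))) F (x⁻¹ * y)
            = c v₀ r * (unitFn893 (m v₀) (r⁻¹ * finGL305 v₀ y)
                * rest470 T (fun v => if v ∈ A then c v else f₀ v) F v₀ y) := by
        intro r
        have hf : ∀ v ∈ A, Function.update f₀ v₀ (fun g => f₀ v₀ (r⁻¹ * g)) v
            = unitFn893 (m v) := by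
          intro v hv
          rw [Function.update_of_ne (ne_of_mem_of_not_mem hv hv₀),
            hf₀ v (Finset.mem_insert_of_mem hv)]
        have e3 : (fun v => if v ∈ A then c v
              else Function.update f₀ v₀ (fun g => f₀ v₀ (r⁻¹ * g)) v)
            = Function.update (fun v => if v ∈ A then c v else f₀ v) v₀
                (fun g => unitFn893 (m v₀) (r⁻¹ * g)) := by
          funext v
          by_cases hv : v = v₀
          · subst hv
            rw [if_neg hv₀, Function.update_self, Function.update_self,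
              hf₀ v (Finset.mem_insert_self _ _)]
          · rw [Function.update_of_ne hv, Function.update_of_ne hv]
        calc ∑ x ∈ s, β x * c v₀ r
              * pure305 T (Function.update f₀ v₀ (fun g => f₀ v₀ (r⁻¹ * g))) F (x⁻¹ * y)
            = c v₀ r * ∑ x ∈ s, β x
                * pure305 T (Function.update f₀ v₀ (fun g => f₀ v₀ (r⁻¹ * g))) F (x⁻¹ * y) := by
              rw [Finset.mul_sum]
              refine Finset.sum_congr rfl fun x _ => ?_
              ring
          _ = c v₀ r * pure305 T (fun v => if v ∈ A then c v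
                else Function.update f₀ v₀ (fun g => f₀ v₀ (r⁻¹ * g)) v) F y := by
              rw [hrep T _ F hAT hf y]
          _ = c v₀ r * pure305 T (Function.update (fun v => if v ∈ A then c v else f₀ v) v₀
                (fun g => unitFn893 (m v₀) (r⁻¹ * g))) F y := by
              rw [e3]
          _ = c v₀ r * (unitFn893 (m v₀) (r⁻¹ * finGL305 v₀ y)
                * rest470 T (fun v => if v ∈ A then c v else f₀ v) F v₀ y) := by
              rw [pure_update470 T _ F hv₀T]
      simp only [e2]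
      have e4 : (fun v => if v ∈ insert v₀ A then c v else f₀ v)
          = Function.update (fun v => if v ∈ A then c v else f₀ v) v₀ (c v₀) := by
        funext v
        by_cases hv : v = v₀
        · subst hv
          rw [if_pos (Finset.mem_insert_self _ _), Function.update_self]
        · rw [Function.update_of_ne hv]
          by_cases hvA : v ∈ A
          · rw [if_pos (Finset.mem_insert_of_mem hvA), if_pos hvA]
          · rw [if_neg hvA, if_neg (fun e => (Finset.mem_insert.mp e).elim hv hvA)]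
      rw [e4, pure_update470 T _ F hv₀T, ← hR (finGL305 v₀ y), Finset.sum_mul]
      refine Finset.sum_congr rfl fun r _ => ?_
      ring

end Global

/-! ## 5. The leaf -/

/-- **LEAF T7.L2.1.H2a.4.3 = WT-DOWN**, VERBATIM. -/
theorem wtDownC470 (K K' : Type) [Field K] [NumberField K] [Field K'] [NumberField K']
    [Algebra K K'] : B970.WtDownC970 K K' := by
  intro ℓ Φ B _ 𝔫 hlvl T₀ n n₀ m hexp b hb
  classical
  have huT₀ : B.u ∈ T₀ := (hexp.mem B.u).2 hlvl.u_level
  have hmu : 1 ≤ m B.u := one_le_of_dvd470 hexp.lvl hlvl.u_level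
  have hL : ∀ v ∈ T₀, ∃ R : Finset (GL (Fin 2) (v.adicCompletion K)),
      ∀ g : GL (Fin 2) (v.adicCompletion K),
        ∑ r ∈ R, (if v = B.u then iwFn893 else b v) r * unitFn893 (m v) (r⁻¹ * g)
          = (if v = B.u then iwFn893 else b v) g := by
    intro v hv
    by_cases hvu : v = B.u
    · simp only [if_pos hvu]
      have hm1 : 1 ≤ m v := hvu ▸ hmu
      exact local_decomp470 (m v) iwFn893 (fun g u hu => iwFn_mul470 hm1 g u hu)
        (iw_finSupp470 hlvl.level_ne hexp.lvl v)
    · simp only [if_neg hvu]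
      obtain ⟨hbi, hfs⟩ := hb v (Finset.mem_erase.mpr ⟨hvu, hv⟩)
      refine local_decomp470 (m v) (b v) (fun g u hu => ?_) hfs
      have := hbi 1 u g (inU_one470 _) hu
      rwa [one_mul] at this
  obtain ⟨s, β, hsupp, hrep⟩ := wt_induct470 m (fun v => if v = B.u then iwFn893 else b v) T₀ hL
  refine ⟨s, β, ⟨hsupp, ?_⟩⟩
  intro T f₀ F hT hf₀ y
  rw [hrep T f₀ F hT hf₀ y]
  congr 1
  funext v
  unfold repDn970
  by_cases hvu : v = B.u
  · rw [if_pos hvu, if_pos hvu, if_pos (hvu ▸ huT₀)]
  · rw [if_neg hvu, if_neg hvu]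

end Fermat.Agent.LT.T7.H470

end
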