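import Mathlib
import Fermat.Agent.LT.T7.H470.WtDown

/-!
# Row LT, tower T7, node T7.L2.1.H2a.4 `Pair2Cb970`, leaf T7.L2.1.H2a.4.1 `WtUpC970`
# (helper470, SPARE of registry row 2862)

OFF-MAIN.  `wtUpC470 (K K') : B970.WtUpC970 K K'`, VERBATIM against
`LT/T7/B970/Pair2Spec.lean` (helper970@c68ed6767).  Imports: Mathlib + `T7/H470/WtDown`
(the leaf `WtDownC970`, same closure: spec + kits `LT/H129/{Comp,Local}`, `LT/T7/H981/FinIndex`).
ADDITIVE (new names only, suffix `470`).

Route.  As for `WtDownC970`, with the weights `1`: at a place `w` over `T₀` the group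
`H_w` (Iwahori subgroup over `u`, `U(n₀ w)` otherwise) is a finite DISJOINT union of cosets
`r U(n w)`, `r ∈ R_w ⊆ H_w`; `s'` = the products of the local embeddings (the product map is
injective: the components are read off); `mem`: `x = i · u`, `i` = the part of `x` at the
places over `u`.
-/

set_option autoImplicit false

open IsDedekindDomain NumberField

noncomputable section

namespace Fermat.Agent.LT.T7.H470

open Fermat.Agent.LT.H556 Fermat.Agent.LT.H556.A0 Fermat.Agent.LT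
open Fermat.Agent.LT.T7.H305 Fermat.Agent.LT.T7.H893 Fermat.Agent.LT.T7.B981
open Fermat.Agent.LT.T7.B970 Fermat.Agent.LT.H129

/-! ## 1. Local systems of representatives -/

section Local

variable {k : Type} [Field k] [Valued k T6.Γ₀]

theorem inU_mono470 {n₀ n : ℕ} (h : n₀ ≤ n) {g : GL (Fin 2) k} (hg : T6.InU n g) :
    T6.InU n₀ g := by
  intro i j
  have he : (WithZero.exp (-(n : ℤ)) : T6.Γ₀) ≤ WithZero.exp (-(n₀ : ℤ)) :=
    WithZero.exp_le_exp.mpr (by omega)
  exact ⟨(hg i j).1.trans he, (hg i j).2.trans he⟩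

theorem unitFn_mul470 {n₀ n : ℕ} (h : n₀ ≤ n) (g u : GL (Fin 2) k) (hu : T6.InU n u) :
    unitFn893 n₀ (g * u) = unitFn893 n₀ g := by
  have hu0 : T6.InU n₀ u := inU_mono470 h hu
  have hiff : T6.InU n₀ (g * u) ↔ T6.InU n₀ g := by
    constructor
    · intro e
      have := inU_mul470 e (inU_inv470 hu0)
      rwa [mul_assoc, mul_inv_cancel, mul_one] at this
    · intro e
      exact inU_mul470 e hu0
  by_cases hg : T6.InU n₀ g
  · have h1 : unitFn893 n₀ (g * u) = 1 := if_pos (hiff.2 hg)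
    have h2 : unitFn893 n₀ g = 1 := if_pos hg
    rw [h1, h2]
  · have h1 : unitFn893 n₀ (g * u) = 0 := if_neg (fun e => hg (hiff.1 e))
    have h2 : unitFn893 n₀ g = 0 := if_neg hg
    rw [h1, h2]

theorem inIw_one470 : InIw893 (1 : GL (Fin 2) k) := by
  refine ⟨fun i j => val_one_entry470 i j, fun i j => ?_, ?_⟩
  · rw [inv_one]
    exact val_one_entry470 i j
  · rw [Units.val_one, Matrix.one_apply_ne (by decide), map_zero]
    exact zero_lt_one

/-- **A local system of representatives**: the indicator function of a set `P` which contains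
`1`, is right invariant under `U(n)` and is covered by finitely many cosets of `U(n)`, is the
sum of the left translates of the unit function over a finite non-empty subset of `P`. -/
theorem local_sys470 (n : ℕ) (P : GL (Fin 2) k → Prop) (φ : GL (Fin 2) k → ℂ)
    (hφ : ∀ g : GL (Fin 2) k, (P g → φ g = 1) ∧ (¬ P g → φ g = 0)) (h1 : P 1)
    (hinv : ∀ g u : GL (Fin 2) k, T6.InU n u → φ (g * u) = φ g)
    (hfin : T6.HasFinSupp (T6.InU n) φ) :
    ∃ R : Finset (GL (Fin 2) k), R.Nonempty ∧ (∀ r ∈ R, P r) ∧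
      ∀ g : GL (Fin 2) k, ∑ r ∈ R, unitFn893 n (r⁻¹ * g) = φ g := by
  classical
  obtain ⟨R₀, hR₀⟩ := local_decomp470 n φ hinv hfin
  have hsum : ∀ g : GL (Fin 2) k,
      ∑ r ∈ R₀.filter P, unitFn893 n (r⁻¹ * g) = φ g := by
    intro g
    rw [Finset.sum_filter, ← hR₀ g]
    refine Finset.sum_congr rfl fun r _ => ?_
    by_cases hr : P r
    · rw [if_pos hr, (hφ r).1 hr, one_mul]
    · rw [if_neg hr, (hφ r).2 hr, zero_mul]
  refine ⟨R₀.filter P, ?_, fun r hr => (Finset.mem_filter.mp hr).2, hsum⟩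
  by_contra hne
  rw [Finset.not_nonempty_iff_eq_empty] at hne
  have h := hsum 1
  rw [hne, Finset.sum_empty, (hφ 1).1 h1] at h
  exact zero_ne_one h

end Local

/-! ## 2. Levels -/

section Global

variable {K : Type} [Field K] [NumberField K]

/-- The valuation of a completion at a finite place takes every value `exp (-k)`. -/
theorem exists_val_eq_exp470 (v : HeightOneSpectrum (𝓞 K)) (k : ℕ) :
    ∃ x : v.adicCompletion K, Valued.v x = WithZero.exp (-(k : ℤ)) := by
  obtain ⟨π, hπ⟩ := v.valuation_exists_uniformizer K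
  refine ⟨((π ^ k : K) : v.adicCompletion K), ?_⟩
  rw [HeightOneSpectrum.valuedAdicCompletion_eq_valuation', map_pow, hπ, ← WithZero.exp_nsmul]
  congr 1
  simp

theorem level_le_of_le470 {𝔫 𝔑₀ : Ideal (𝓞 K)} (h : 𝔫 ≤ 𝔑₀)
    {n n₀ : HeightOneSpectrum (𝓞 K) → ℕ} (hn : IsLevelOf893 𝔫 n) (hn₀ : IsLevelOf893 𝔑₀ n₀)
    (w : HeightOneSpectrum (𝓞 K)) : n₀ w ≤ n w := by
  obtain ⟨x, hx⟩ := exists_val_eq_exp470 w (n w)
  have h1 : x ∈ idealClosure 𝔫 w := (hn w x).2 hx.le
  have h2 : x ∈ idealClosure 𝔑₀ w := closure_mono (Set.image_mono h) h1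
  have h3 := (hn₀ w x).1 h2
  rw [hx, WithZero.exp_le_exp] at h3
  omega

/-- A function supported in `GL₂(𝒪_u)` is supported on finitely many cosets of `U(m u)`. -/
theorem finSupp_of_intg470 {𝔫 : Ideal (𝓞 K)} (h𝔫 : 𝔫 ≠ ⊥) {m : HeightOneSpectrum (𝓞 K) → ℕ}
    (hm : IsLevelOf893 𝔫 m) (u : HeightOneSpectrum (𝓞 K))
    (φ : GL (Fin 2) (u.adicCompletion K) → ℂ)
    (hφ : ∀ g : GL (Fin 2) (u.adicCompletion K), φ g ≠ 0 →
      Intg470 (g : Matrix (Fin 2) (Fin 2) (u.adicCompletion K)) ∧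
      Intg470 ((g⁻¹ : GL (Fin 2) (u.adicCompletion K)) :
        Matrix (Fin 2) (Fin 2) (u.adicCompletion K))) :
    T6.HasFinSupp (T6.InU (m u)) φ := by
  classical
  obtain ⟨T, hT⟩ := H981.finIndexC981 K 𝔫 h𝔫
  refine ⟨T.image (finCompHom129 u), fun g hg => ?_⟩
  obtain ⟨hg1, hg2⟩ := hφ g hg
  obtain ⟨τ, hτ, hlev⟩ := hT (locFin129 u g) (fun w => trivAtInf_locFin470 u g w)
    (fun v => ⟨isIntegralAt_locFin470 u g hg1 v, by
      rw [← map_inv]
      exact isIntegralAt_locFin470 u g⁻¹ hg2 v⟩)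
  refine ⟨finCompHom129 u τ, Finset.mem_image_of_mem _ hτ, (finCompHom129 u τ)⁻¹ * g, ?_,
    (mul_inv_cancel_left _ _).symm⟩
  have e : (finCompHom129 u τ)⁻¹ * g = finCompHom129 u (τ⁻¹ * locFin129 u g) := by
    rw [map_mul, map_inv, finCompHom129_locFin129]
  rw [e]
  intro i j
  have h := hlev.2 u i j
  refine ⟨(hm u _).1 h.1, ?_⟩
  rw [← map_inv]
  exact (hm u _).1 h.2

/-! ## 3. The induction over the places, weights `1` -/

open Classical in
theorem rep_induct470 (m : HeightOneSpectrum (𝓞 K) → ℕ)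
    (c : ∀ v : HeightOneSpectrum (𝓞 K), GL (Fin 2) (v.adicCompletion K) → ℂ)
    (Hp : ∀ v : HeightOneSpectrum (𝓞 K), GL (Fin 2) (v.adicCompletion K) → Prop)
    (A : Finset (HeightOneSpectrum (𝓞 K)))
    (hL : ∀ v ∈ A, ∃ R : Finset (GL (Fin 2) (v.adicCompletion K)),
      R.Nonempty ∧ (∀ r ∈ R, Hp v r) ∧
      ∀ g : GL (Fin 2) (v.adicCompletion K),
        ∑ r ∈ R, unitFn893 (m v) (r⁻¹ * g) = c v g) :
    ∃ s : Finset (G K), s.Nonempty ∧
      (∀ x ∈ s, (∀ w : InfinitePlace K, TrivAtInf w x) ∧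
        (∀ v : HeightOneSpectrum (𝓞 K), v ∉ A → TrivAtFin v x) ∧
        ∀ v ∈ A, Hp v (finCompHom129 v x)) ∧
      ∀ (T : Finset (HeightOneSpectrum (𝓞 K)))
        (f₀ : ∀ v : HeightOneSpectrum (𝓞 K), GL (Fin 2) (v.adicCompletion K) → ℂ)
        (F : InfinitePlace K → GL (Fin 2) ℂ → ℂ), A ⊆ T →
        (∀ v ∈ A, f₀ v = unitFn893 (m v)) →
        ∀ y : G K, ∑ x ∈ s, pure305 T f₀ F (x⁻¹ * y)
          = pure305 T (fun v => if v ∈ A then c v else f₀ v) F y := by
  induction A using Finset.induction_on with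
  | empty =>
    refine ⟨{1}, Finset.singleton_nonempty _, ?_, ?_⟩
    · intro x hx
      rw [Finset.mem_singleton] at hx
      subst hx
      exact ⟨fun w => (trivAtInf_iff129 w 1).2 (map_one _),
        fun v _ => (trivAtFin_iff129 v 1).2 (map_one _), fun v hv => absurd hv (by simp)⟩
    · intro T f₀ F _ _ y
      simp
  | insert v₀ A hv₀ ih =>
    obtain ⟨s, hsne, hsupp, hrep⟩ := ih (fun v hv => hL v (Finset.mem_insert_of_mem hv))
    obtain ⟨R, hRne, hRP, hR⟩ := hL v₀ (Finset.mem_insert_self _ _)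
    let X : G K × GL (Fin 2) (v₀.adicCompletion K) → G K := fun p => p.1 * locFin129 v₀ p.2
    have hcomp₀ : ∀ p ∈ s ×ˢ R, finCompHom129 v₀ (X p) = p.2 := by
      intro p hp
      have hp1 : p.1 ∈ s := (Finset.mem_product.mp hp).1
      show finCompHom129 v₀ (p.1 * locFin129 v₀ p.2) = p.2
      rw [map_mul, finCompHom129_locFin129,
        (trivAtFin_iff129 v₀ _).1 ((hsupp p.1 hp1).2.1 v₀ hv₀), one_mul]
    have hinj : Set.InjOn X (s ×ˢ R : Finset _) := by
      intro p hp q hq hpq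
      have h2 : p.2 = q.2 := by
        rw [← hcomp₀ p hp, ← hcomp₀ q hq, hpq]
      have h1 : p.1 = q.1 := by
        have e : p.1 * locFin129 v₀ p.2 = q.1 * locFin129 v₀ q.2 := hpq
        rw [h2] at e
        exact mul_right_cancel e
      exact Prod.ext h1 h2
    refine ⟨(s ×ˢ R).image X, (hsne.product hRne).image X, ?_, ?_⟩
    · intro z hz
      obtain ⟨p, hp, rfl⟩ := Finset.mem_image.mp hz
      have hp1 : p.1 ∈ s := (Finset.mem_product.mp hp).1
      have hp2 : p.2 ∈ R := (Finset.mem_product.mp hp).2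
      refine ⟨fun w => ?_, fun v hv => ?_, fun v hv => ?_⟩
      · rw [trivAtInf_iff129]
        show infCompHom129 w (p.1 * locFin129 v₀ p.2) = 1
        rw [map_mul, infCompHom129_locFin129, mul_one]
        exact (trivAtInf_iff129 w _).1 ((hsupp p.1 hp1).1 w)
      · rw [trivAtFin_iff129]
        show finCompHom129 v (p.1 * locFin129 v₀ p.2) = 1
        have hv1 : v ≠ v₀ := fun e => hv (e ▸ Finset.mem_insert_self _ _)
        have hv2 : v ∉ A := fun e => hv (Finset.mem_insert_of_mem e)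
        rw [map_mul, finCompHom129_locFin129_of_ne v₀ p.2 hv1, mul_one]
        exact (trivAtFin_iff129 v _).1 ((hsupp p.1 hp1).2.1 v hv2)
      · by_cases hvv : v = v₀
        · subst hvv
          rw [hcomp₀ p hp]
          exact hRP p.2 hp2
        · have hvA : v ∈ A := (Finset.mem_insert.mp hv).resolve_left hvv
          show Hp v (finCompHom129 v (p.1 * locFin129 v₀ p.2))
          rw [map_mul, finCompHom129_locFin129_of_ne v₀ p.2 hvv, mul_one]
          exact (hsupp p.1 hp1).2.2 v hvA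
    · intro T f₀ F hT hf₀ y
      have hv₀T : v₀ ∈ T := hT (Finset.mem_insert_self _ _)
      have hAT : A ⊆ T := fun v hv => hT (Finset.mem_insert_of_mem hv)
      rw [Finset.sum_image hinj, Finset.sum_product]
      have e1 : ∀ (x : G K) (r : GL (Fin 2) (v₀.adicCompletion K)),
          pure305 T f₀ F ((X (x, r))⁻¹ * y)
            = pure305 T (Function.update f₀ v₀ (fun g => f₀ v₀ (r⁻¹ * g))) F (x⁻¹ * y) := by
        intro x r
        rw [← pure_transl470 T f₀ F hv₀T r (x⁻¹ * y)]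
        congr 1
        simp only [X, mul_inv_rev, mul_assoc]
      simp only [e1]
      rw [Finset.sum_comm]
      have e2 : ∀ r : GL (Fin 2) (v₀.adicCompletion K),
          ∑ x ∈ s, pure305 T (Function.update f₀ v₀ (fun g => f₀ v₀ (r⁻¹ * g))) F (x⁻¹ * y)
            = unitFn893 (m v₀) (r⁻¹ * finGL305 v₀ y)
                * rest470 T (fun v => if v ∈ A then c v else f₀ v) F v₀ y := by
        intro r
        have hf : ∀ v ∈ A, Function.update f₀ v₀ (fun g => f₀ v₀ (r⁻¹ * g)) v
            = unitFn893 (m v) := by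
          intro v hv
          rw [Function.update_of_ne (ne_of_mem_of_not_mem hv hv₀),
            hf₀ v (Finset.mem_insert_of_mem hv)]
        have e3 : (fun v => if v ∈ A then c v
              else Function.update f₀ v₀ (fun g => f₀ v₀ (r⁻¹ * g)) v)
            = Function.update (fun v => if v ∈ A then c v else f₀ v) v₀
                (fun g => unitFn893 (m v₀) (r⁻¹ * g)) := by
          funext v
          by_cases hv : v = v₀
          · subst hv
            rw [if_neg hv₀, Function.update_self, Function.update_self,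
              hf₀ v (Finset.mem_insert_self _ _)]
          · rw [Function.update_of_ne hv, Function.update_of_ne hv]
        rw [hrep T _ F hAT hf y, e3, pure_update470 T _ F hv₀T]
      simp only [e2]
      have e4 : (fun v => if v ∈ insert v₀ A then c v else f₀ v)
          = Function.update (fun v => if v ∈ A then c v else f₀ v) v₀ (c v₀) := by
        funext v
        by_cases hv : v = v₀
        · subst hv
          rw [if_pos (Finset.mem_insert_self _ _), Function.update_self]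
        · rw [Function.update_of_ne hv]
          by_cases hvA : v ∈ A
          · rw [if_pos (Finset.mem_insert_of_mem hvA), if_pos hvA]
          · rw [if_neg hvA, if_neg (fun e => (Finset.mem_insert.mp e).elim hv hvA)]
      rw [e4, pure_update470 T _ F hv₀T, ← hR (finGL305 v₀ y), Finset.sum_mul]

/-- The part of `x` at the places of `A₁`. -/
theorem exists_proj470 (A₁ : Finset (HeightOneSpectrum (𝓞 K))) (x : G K) :
    ∃ i : G K, (∀ w : InfinitePlace K, infCompHom129 w i = 1) ∧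
      (∀ v ∈ A₁, finCompHom129 v i = finCompHom129 v x) ∧
      ∀ v : HeightOneSpectrum (𝓞 K), v ∉ A₁ → finCompHom129 v i = 1 := by
  classical
  induction A₁ using Finset.induction_on with
  | empty =>
    exact ⟨1, fun w => map_one _, fun v hv => absurd hv (by simp), fun v _ => map_one _⟩
  | insert v₀ A₁ hv₀ ih =>
    obtain ⟨i, hi1, hi2, hi3⟩ := ih
    refine ⟨i * locFin129 v₀ (finCompHom129 v₀ x), fun w => ?_, fun v hv => ?_, fun v hv => ?_⟩
    · rw [map_mul, hi1 w, infCompHom129_locFin129, mul_one]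
    · by_cases hvv : v = v₀
      · subst hvv
        rw [map_mul, hi3 v hv₀, finCompHom129_locFin129, one_mul]
      · have hvA : v ∈ A₁ := (Finset.mem_insert.mp hv).resolve_left hvv
        rw [map_mul, hi2 v hvA, finCompHom129_locFin129_of_ne v₀ _ hvv, mul_one]
    · have hv1 : v ≠ v₀ := fun e => hv (e ▸ Finset.mem_insert_self _ _)
      have hv2 : v ∉ A₁ := fun e => hv (Finset.mem_insert_of_mem e)
      rw [map_mul, hi3 v hv2, finCompHom129_locFin129_of_ne v₀ _ hv1, mul_one]

/-- The local form of `T5.InIwahori`. -/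
theorem inIwahori_of470 {w : HeightOneSpectrum (𝓞 K)} {i : G K}
    (h : InIw893 (finCompHom129 w i)) : T5.InIwahori w i := by
  refine ⟨?_, ?_, h.2.2⟩
  · rw [isIntegralAt_iff129]
    intro a b
    rw [HeightOneSpectrum.mem_adicCompletionIntegers]
    exact h.1 a b
  · rw [isIntegralAt_iff129, map_inv]
    intro a b
    rw [HeightOneSpectrum.mem_adicCompletionIntegers]
    exact h.2.1 a b

/-- The local form of `InLevelGroup`. -/
theorem inLevelGroup_of470 {𝔑₀ : Ideal (𝓞 K)} {n₀ : HeightOneSpectrum (𝓞 K) → ℕ}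
    (hn₀ : IsLevelOf893 𝔑₀ n₀) {u : G K} (h1 : ∀ w : InfinitePlace K, infCompHom129 w u = 1)
    (h2 : ∀ v : HeightOneSpectrum (𝓞 K), T6.InU (n₀ v) (finCompHom129 v u)) :
    InLevelGroup 𝔑₀ u := by
  refine ⟨fun w => (trivAtInf_iff129 w u).2 (h1 w), fun v i j => ⟨?_, ?_⟩⟩
  · exact (hn₀ v _).2 (h2 v i j).1
  · have := (h2 v i j).2
    rw [← map_inv] at this
    exact (hn₀ v _).2 this

end Global

/-! ## 4. The leaf -/

/-- **LEAF T7.L2.1.H2a.4.1 = WT-UP**, VERBATIM. -/
theorem wtUpC470 (K K' : Type) [Field K] [NumberField K] [Field K'] [NumberField K']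
    [Algebra K K'] : B970.WtUpC970 K K' := by
  intro ℓ Φ B hB 𝔫 hlvl T₀ n n₀ m hexp
  classical
  have huT₀ : B.u ∈ T₀ := (hexp.mem B.u).2 hlvl.u_level
  have hup_ne : upI (K' := K') 𝔫 ≠ ⊥ := by
    unfold upI
    rw [Ne, Ideal.map_eq_bot_iff_of_injective
      (NumberField.RingOfIntegers.algebraMap.injective K K')]
    exact hlvl.level_ne
  have hover : ∀ v ∈ T₀, ∀ w : HeightOneSpectrum (𝓞 K'), PlaceOver K K' v w →
      w.asIdeal ∣ upI (K' := K') 𝔫 := by
    intro v hv w hw
    rw [Ideal.dvd_iff_le]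
    unfold upI
    rw [Ideal.map_le_iff_le_comap]
    intro x hx
    rw [Ideal.mem_comap]
    have hxv : x ∈ v.asIdeal := Ideal.le_of_dvd ((hexp.mem v).1 hv) hx
    exact (hw x (algebraMap (𝓞 K) (𝓞 K') x) rfl).1 hxv
  have hA' : ∃ A' : Finset (HeightOneSpectrum (𝓞 K')),
      ∀ w : HeightOneSpectrum (𝓞 K'), w ∈ A' ↔ ∃ v ∈ T₀, PlaceOver K K' v w := by
    refine ⟨B.S'.filter (fun w => ∃ v ∈ T₀, PlaceOver K K' v w), fun w => ?_⟩
    rw [Finset.mem_filter]
    constructor
    · exact fun h => h.2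
    · rintro ⟨v, hv, hw⟩
      exact ⟨(hlvl.mem_S'_g w).2 (hover v hv w hw), v, hv, hw⟩
  obtain ⟨A', hA'⟩ := hA'
  have hnn₀ : ∀ w : HeightOneSpectrum (𝓞 K'), n₀ w ≤ n w :=
    level_le_of_le470 hlvl.level_g hexp.lvl_up hexp.lvl_base
  have hL : ∀ w ∈ A', ∃ R : Finset (GL (Fin 2) (w.adicCompletion K')),
      R.Nonempty ∧
      (∀ r ∈ R, (PlaceOver K K' B.u w → InIw893 r) ∧
        (¬ PlaceOver K K' B.u w → T6.InU (n₀ w) r)) ∧
      ∀ g : GL (Fin 2) (w.adicCompletion K'),
        ∑ r ∈ R, unitFn893 (n w) (r⁻¹ * g)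
          = (if PlaceOver K K' B.u w then iwFn893 else unitFn893 (n₀ w)) g := by
    intro w _
    by_cases hwu : PlaceOver K K' B.u w
    · have hn1 : 1 ≤ n w := one_le_of_dvd470 hexp.lvl_up (hover B.u huT₀ w hwu)
      obtain ⟨R, hRne, hRP, hR⟩ := local_sys470 (n w) InIw893 iwFn893
        (fun g => ⟨fun h => if_pos h, fun h => if_neg h⟩) inIw_one470
        (fun g u hu => iwFn_mul470 hn1 g u hu) (iw_finSupp470 hup_ne hexp.lvl_up w)
      refine ⟨R, hRne, fun r hr => ⟨fun _ => hRP r hr, fun h => absurd hwu h⟩, fun g => ?_⟩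
      rw [if_pos hwu]
      exact hR g
    · obtain ⟨R, hRne, hRP, hR⟩ := local_sys470 (n w) (T6.InU (n₀ w)) (unitFn893 (n₀ w))
        (fun g => ⟨fun h => if_pos h, fun h => if_neg h⟩) (inU_one470 _)
        (fun g u hu => unitFn_mul470 (hnn₀ w) g u hu)
        (finSupp_of_intg470 hup_ne hexp.lvl_up w _ (fun g hg => by
          have hU : T6.InU (n₀ w) g := by
            by_contra h
            exact hg (if_neg h)
          rw [inU_iff470] at hU
          exact ⟨intg_of_near470 (exp_neg_le_one470 _) hU.1,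
            intg_of_near470 (exp_neg_le_one470 _) hU.2⟩))
      refine ⟨R, hRne, fun r hr => ⟨fun h => absurd h hwu, fun _ => hRP r hr⟩, fun g => ?_⟩
      rw [if_neg hwu]
      exact hR g
  obtain ⟨s', hne, hprop, hrep⟩ := rep_induct470 n
    (fun w => if PlaceOver K K' B.u w then iwFn893 else unitFn893 (n₀ w))
    (fun w r => (PlaceOver K K' B.u w → InIw893 r) ∧
      (¬ PlaceOver K K' B.u w → T6.InU (n₀ w) r)) A' hL
  refine ⟨s', ⟨hne, ?_, ?_, ?_⟩⟩
  · -- mem
    intro x hx
    obtain ⟨hx1, hx2, hx3⟩ := hprop x hx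
    obtain ⟨i, hi1, hi2, hi3⟩ := exists_proj470 (A'.filter (fun w => PlaceOver K K' B.u w)) x
    have hmemA₁ : ∀ w : HeightOneSpectrum (𝓞 K'),
        w ∈ A'.filter (fun w => PlaceOver K K' B.u w) ↔ PlaceOver K K' B.u w := by
      intro w
      rw [Finset.mem_filter]
      exact ⟨fun h => h.2, fun h => ⟨(hA' w).2 ⟨B.u, huT₀, h⟩, h⟩⟩
    refine ⟨i, i⁻¹ * x, ⟨fun w => (trivAtInf_iff129 w i).2 (hi1 w), fun v hv => ?_,
      fun j hj => ?_⟩, ?_, (mul_inv_cancel_left i x).symm⟩
    · rw [trivAtFin_iff129]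
      refine hi3 v fun hmem => ?_
      obtain ⟨j, hj, hvj⟩ := hB.orbit_all v ((hmemA₁ v).1 hmem)
      exact hv j hj hvj
    · have hoj : PlaceOver K K' B.u (B.o j) := hB.orbit_over j
      have hmem : B.o j ∈ A'.filter (fun w => PlaceOver K K' B.u w) := (hmemA₁ _).2 hoj
      apply inIwahori_of470
      rw [hi2 _ hmem]
      exact (hx3 _ ((hA' _).2 ⟨B.u, huT₀, hoj⟩)).1 hoj
    · refine inLevelGroup_of470 hexp.lvl_base (fun w => ?_) (fun v => ?_)
      · rw [map_mul, map_inv, hi1 w, (trivAtInf_iff129 w x).1 (hx1 w), inv_one, one_mul]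
      · rw [map_mul, map_inv]
        by_cases hvu : PlaceOver K K' B.u v
        · rw [hi2 v ((hmemA₁ v).2 hvu), inv_mul_cancel]
          exact inU_one470 _
        · rw [hi3 v (fun h => hvu ((hmemA₁ v).1 h)), inv_one, one_mul]
          by_cases hvA : v ∈ A'
          · exact (hx3 v hvA).2 hvu
          · rw [(trivAtFin_iff129 v x).1 (hx2 v hvA)]
            exact inU_one470 _
  · -- supp
    intro x hx
    obtain ⟨hx1, hx2, -⟩ := hprop x hx
    exact ⟨hx1, fun w hw => hx2 w (fun h => hw ((hA' w).1 h))⟩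
  · -- rep
    intro T' φ₀ Φ' hT' y
    have hAT : A' ⊆ T' := by
      intro w hw
      obtain ⟨v, hv, hvw⟩ := (hA' w).1 hw
      exact (hT' v hv w hvw).1
    have hf : ∀ w ∈ A', φ₀ w = unitFn893 (n w) := by
      intro w hw
      obtain ⟨v, hv, hvw⟩ := (hA' w).1 hw
      exact (hT' v hv w hvw).2
    rw [hrep T' φ₀ Φ' hAT hf y]
    congr 1
    funext w
    unfold repUp970
    by_cases hwu : PlaceOver K K' B.u w
    · rw [if_pos ((hA' w).2 ⟨B.u, huT₀, hwu⟩), if_pos hwu, if_pos hwu]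
    · by_cases hw : ∃ v ∈ T₀, PlaceOver K K' v w
      · rw [if_pos ((hA' w).2 hw), if_neg hwu, if_neg hwu, if_pos hw]
      · rw [if_neg (fun h => hw ((hA' w).1 h)), if_neg hwu, if_neg hw]

end Fermat.Agent.LT.T7.H470

end
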